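import Fermat.Agent.S53.Good
import Fermat.Agent.S53.H85.PackageM
import Fermat.Agent.S53.H96.TestAlg

/-!
# S53, H5 (helper13): continuity of the functor of good lifts

`x ∈ F 𝒟 γ A` for a complete noetherian local `𝒪`-algebra `A` iff all push-forwards of `x`
along surjections onto Artinian test algebras are good.
-/

set_option autoImplicit false

namespace Fermat.Agent.S53.H13

open IsLocalRing Fermat.Agent.S53 Fermat.Agent.S53.H85

section

variable {𝒪 : Type} [CommRing 𝒪]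
  {𝒟 : ∀ ⦃A : Type⦄ [CommRing A] [IsLocalRing A] [Algebra 𝒪 A], GaloisRepAdic A → Prop}
  {γ : Gauge 𝒪}

/-- Push-forward of a good lift along a local algebra map, given the condition `𝒟`
(this is H9 of the plan). -/
theorem isGood_mapMat {A B : Type} [CommRing A] [IsLocalRing A] [Algebra 𝒪 A]
    [CommRing B] [IsLocalRing B] [Algebra 𝒪 B] (φ : A →ₐ[𝒪] B) (hφ : IsLocalHom (φ : A →+* B))
    (r : GQ →* M2 A) (hr : IsGood 𝒟 γ A r)
    (hcond : ∀ hc : MatCont (mapMat (φ : A →+* B) r), 𝒟 (ofMat (mapMat (φ : A →+* B) r) hc)) :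
    IsGood 𝒟 γ B (mapMat (φ : A →+* B) r) where
  lift σ i j := by
    have h := hr.lift σ i j
    have h2 : (φ : A →+* B) (r σ i j - algebraMap 𝒪 A (γ.rt σ i j)) ∈ maximalIdeal B :=
      map_nonunit (φ : A →+* B) _ h
    simpa [mapMat_apply] using h2
  g00 := by rw [mapMat_apply, hr.g00, map_zero]
  g10 := by rw [mapMat_apply, hr.g10, map_one]
  gij := by
    rw [mapMat_apply, hr.gij]
    exact φ.commutes _
  cont := matCont_mapMat (φ : A →+* B) hφ hr.cont
  cond := hcond _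

/-- A member of `F` is determined by its entries: the witness representation is unique. -/
theorem eq_of_entries {A : Type} [CommRing A] {r r' : GQ →* M2 A} {x : XX → A}
    (h : ∀ σ i j, r σ i j = x (σ, i, j)) (h' : ∀ σ i j, r' σ i j = x (σ, i, j)) : r = r' := by
  ext σ i j
  rw [h, h']

/-- If the push-forward `mapMat φ r` is good then so is any representation with the same entries
(transport of the `cond` field). -/
theorem cond_of_isGood_eq {B : Type} [CommRing B] [IsLocalRing B] [Algebra 𝒪 B]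
    {r r' : GQ →* M2 B} (h : r = r') (hr : IsGood 𝒟 γ B r) (hc : MatCont r') :
    𝒟 (ofMat r' hc) := by
  subst h
  exact hr.cond

end

section Forward

variable {𝒪 : Type} [CommRing 𝒪] [IsLocalRing 𝒪]
  {𝒟 : ∀ ⦃A : Type⦄ [CommRing A] [IsLocalRing A] [Algebra 𝒪 A], GaloisRepAdic A → Prop}
  {γ : Gauge 𝒪}

/-- H5, direction (→). -/
theorem F_cont_mp (h𝒟 : GaloisRep.IsDeformationCondition 𝒪 𝒟)
    (A : Type) [CommRing A] [IsLocalRing A] [IsNoetherianRing A]
    [IsAdicComplete (maximalIdeal A) A] [Algebra 𝒪 A]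
    (hloc : IsLocalHom (algebraMap 𝒪 A))
    (hres : Function.Surjective (residue A ∘ algebraMap 𝒪 A)) (x : XX → A)
    (hx : x ∈ F 𝒟 γ A)
    (B : Type) [CommRing B] [IsLocalRing B] [Algebra 𝒪 B]
    (hB : GaloisRep.IsArtinianTestAlgebra 𝒪 B) (q : A →ₐ[𝒪] B) (hq : Function.Surjective q) :
    (fun i => q (x i)) ∈ F 𝒟 γ B := by
  obtain ⟨r, hrx, hr⟩ := hx
  have hqloc : IsLocalHom (q : A →+* B) :=
    H96.isLocalHom_of_residue_surjective hB.residue_surjective q
  refine ⟨mapMat (q : A →+* B) r, fun σ i j => ?_, isGood_mapMat q hqloc r hr fun hc => ?_⟩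
  · rw [mapMat_apply, hrx]
    rfl
  · have h1 : 𝒟 ((ofMat r hr.cont).baseChangeAlong (q : A →+* B) hqloc) :=
      (h𝒟.iff_forall_surjective hloc hres (ofMat r hr.cont)).mp hr.cond hB q hqloc hq
    exact h𝒟.of_isEquiv hB (baseChangeAlong_ofMat_isEquiv (q : A →+* B) hqloc hr.cont hc) h1

end Forward

section Krull

variable {A : Type} [CommRing A] [IsLocalRing A]

theorem maximalIdeal_pow_succ_ne_top (n : ℕ) : maximalIdeal A ^ (n + 1) ≠ ⊤ := by
  intro h
  have h1 : maximalIdeal A ^ (n + 1) ≤ maximalIdeal A := Ideal.pow_le_self (Nat.succ_ne_zero n)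
  rw [h] at h1
  exact (maximalIdeal.isMaximal A).ne_top (top_le_iff.mp h1)

variable [IsNoetherianRing A]

/-- Krull intersection: an element of all powers of the maximal ideal is zero. -/
theorem eq_zero_of_forall_mem_pow {a : A} (h : ∀ n : ℕ, a ∈ maximalIdeal A ^ (n + 1)) :
    a = 0 := by
  have h0 : a ∈ (⨅ i, maximalIdeal A ^ i : Ideal A) := by
    rw [Ideal.mem_iInf]
    intro i
    cases i with
    | zero => simp
    | succ n => exact h n
  rw [Ideal.iInf_pow_eq_bot_of_isLocalRing _ (maximalIdeal.isMaximal A).ne_top] at h0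
  simpa using h0

/-- Two elements with the same image in all `A ⧸ m ^ (n + 1)` are equal. -/
theorem eq_of_forall_mk_eq {a b : A}
    (h : ∀ n : ℕ, Ideal.Quotient.mk (maximalIdeal A ^ (n + 1)) a =
      Ideal.Quotient.mk (maximalIdeal A ^ (n + 1)) b) : a = b := by
  rw [← sub_eq_zero]
  refine eq_zero_of_forall_mem_pow fun n => ?_
  rw [← Ideal.Quotient.eq]
  exact h n

end Krull

section Backward

variable {𝒪 : Type} [CommRing 𝒪] [IsLocalRing 𝒪]
  {𝒟 : ∀ ⦃A : Type⦄ [CommRing A] [IsLocalRing A] [Algebra 𝒪 A], GaloisRepAdic A → Prop}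
  {γ : Gauge 𝒪}

/-- H5, direction (←). -/
theorem F_cont_mpr (h𝒟 : GaloisRep.IsDeformationCondition 𝒪 𝒟)
    (A : Type) [CommRing A] [IsLocalRing A] [IsNoetherianRing A]
    [IsAdicComplete (maximalIdeal A) A] [Algebra 𝒪 A]
    (hloc : IsLocalHom (algebraMap 𝒪 A))
    (hres : Function.Surjective (residue A ∘ algebraMap 𝒪 A)) (x : XX → A)
    (H : ∀ (B : Type) [CommRing B] [IsLocalRing B] [Algebra 𝒪 B],
        GaloisRep.IsArtinianTestAlgebra 𝒪 B → ∀ q : A →ₐ[𝒪] B, Function.Surjective q →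
          (fun i => q (x i)) ∈ F 𝒟 γ B) :
    x ∈ F 𝒟 γ A := by
  -- the level-`n` witnesses
  have K : ∀ n : ℕ,
      haveI : IsLocalRing (A ⧸ maximalIdeal A ^ (n + 1)) :=
        H96.isLocalRing_quotient (maximalIdeal_pow_succ_ne_top n)
      ∃ r : GQ →* M2 (A ⧸ maximalIdeal A ^ (n + 1)),
        (∀ σ i j, r σ i j = Ideal.Quotient.mk (maximalIdeal A ^ (n + 1)) (x (σ, i, j))) ∧
        IsGood 𝒟 γ (A ⧸ maximalIdeal A ^ (n + 1)) r := by
    intro n
    have : IsLocalRing (A ⧸ maximalIdeal A ^ (n + 1)) :=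
      H96.isLocalRing_quotient (maximalIdeal_pow_succ_ne_top n)
    have hB : GaloisRep.IsArtinianTestAlgebra 𝒪 (A ⧸ maximalIdeal A ^ (n + 1)) :=
      H96.testAlg_quotient hloc hres _ le_rfl
    obtain ⟨r, hr1, hr2⟩ := H _ hB (Ideal.Quotient.mkₐ 𝒪 (maximalIdeal A ^ (n + 1)))
      (Ideal.Quotient.mkₐ_surjective 𝒪 _)
    exact ⟨r, fun σ i j => by rw [hr1]; rfl, hr2⟩
  -- the representation
  let X : GQ → M2 A := fun σ => Matrix.of fun i j => x (σ, i, j)
  have hX1 : X 1 = 1 := by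
    ext i j
    refine eq_of_forall_mk_eq fun n => ?_
    obtain ⟨r, hr1, -⟩ := K n
    show Ideal.Quotient.mk _ (x (1, i, j)) = _
    rw [← hr1, map_one, Matrix.one_apply, Matrix.one_apply]
    split_ifs <;> simp
  have hXmul : ∀ σ τ, X (σ * τ) = X σ * X τ := by
    intro σ τ
    ext i j
    refine eq_of_forall_mk_eq fun n => ?_
    obtain ⟨r, hr1, -⟩ := K n
    show Ideal.Quotient.mk _ (x (σ * τ, i, j)) = _
    rw [← hr1, map_mul, Matrix.mul_apply, Matrix.mul_apply, map_sum]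
    refine Finset.sum_congr rfl fun k _ => ?_
    rw [map_mul, hr1, hr1]
    rfl
  let r : GQ →* M2 A :=
    { toFun := X
      map_one' := hX1
      map_mul' := hXmul }
  have hrx : ∀ σ i j, r σ i j = x (σ, i, j) := fun σ i j => rfl
  -- continuity
  have hcont : MatCont r := by
    intro n
    obtain ⟨rn, hr1, hr2⟩ := K n
    have : IsLocalRing (A ⧸ maximalIdeal A ^ (n + 1)) :=
      H96.isLocalRing_quotient (maximalIdeal_pow_succ_ne_top n)
    obtain ⟨L, hL, hLσ⟩ := hr2.cont (n + 1)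
    refine ⟨L, hL, fun σ hσ i j => ?_⟩
    have h1 := hLσ σ hσ i j
    rw [H96.maximalIdeal_pow_quotient_eq_bot _ le_rfl, Ideal.mem_bot, Matrix.sub_apply,
      sub_eq_zero, hr1] at h1
    have h2 : (r σ - 1) i j ∈ maximalIdeal A ^ (n + 1) := by
      rw [← Ideal.Quotient.eq_zero_iff_mem, Matrix.sub_apply, map_sub, hrx, h1,
        Matrix.one_apply, Matrix.one_apply]
      split_ifs <;> simp
    exact Ideal.pow_le_pow_right (Nat.le_succ n) h2
  refine ⟨r, hrx, ?_⟩
  refine
    { lift := ?_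
      g00 := ?_
      g10 := ?_
      gij := ?_
      cont := hcont
      cond := ?_ }
  · -- lift: use level 0
    intro σ i j
    obtain ⟨r0, hr1, hr2⟩ := K 0
    have : IsLocalRing (A ⧸ maximalIdeal A ^ (0 + 1)) :=
      H96.isLocalRing_quotient (maximalIdeal_pow_succ_ne_top 0)
    have h1 := hr2.lift σ i j
    by_contra hnot
    have hu : IsUnit (r σ i j - algebraMap 𝒪 A (γ.rt σ i j)) := by
      by_contra h'
      exact hnot ((mem_maximalIdeal _).mpr h')
    have hu' : IsUnit (Ideal.Quotient.mk (maximalIdeal A ^ (0 + 1))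
        (r σ i j - algebraMap 𝒪 A (γ.rt σ i j))) := hu.map _
    rw [map_sub, hrx, ← hr1] at hu'
    exact (mem_maximalIdeal _).mp h1 hu'
  · refine eq_of_forall_mk_eq fun n => ?_
    have : IsLocalRing (A ⧸ maximalIdeal A ^ (n + 1)) :=
      H96.isLocalRing_quotient (maximalIdeal_pow_succ_ne_top n)
    obtain ⟨rn, hr1, hr2⟩ := K n
    rw [hrx, ← hr1, hr2.g00, map_zero]
  · refine eq_of_forall_mk_eq fun n => ?_
    have : IsLocalRing (A ⧸ maximalIdeal A ^ (n + 1)) :=
      H96.isLocalRing_quotient (maximalIdeal_pow_succ_ne_top n)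
    obtain ⟨rn, hr1, hr2⟩ := K n
    rw [hrx, ← hr1, hr2.g10, map_one]
  · refine eq_of_forall_mk_eq fun n => ?_
    have : IsLocalRing (A ⧸ maximalIdeal A ^ (n + 1)) :=
      H96.isLocalRing_quotient (maximalIdeal_pow_succ_ne_top n)
    obtain ⟨rn, hr1, hr2⟩ := K n
    rw [hrx, ← hr1, hr2.gij]
    rfl
  · -- cond
    refine (h𝒟.iff_forall_surjective hloc hres (ofMat r hcont)).mpr ?_
    intro B _ _ _ hB q hqloc hq
    obtain ⟨rB, hrB1, hrB2⟩ := H B hB q hq
    have hc : MatCont (mapMat (q : A →+* B) r) := matCont_mapMat (q : A →+* B) hqloc hcont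
    have heq : rB = mapMat (q : A →+* B) r := by
      ext σ i j
      rw [hrB1, mapMat_apply, hrx]
      rfl
    have h1 : 𝒟 (ofMat (mapMat (q : A →+* B) r) hc) := cond_of_isGood_eq heq hrB2 hc
    obtain ⟨e⟩ := baseChangeAlong_ofMat_isEquiv (q : A →+* B) hqloc hcont hc
    exact h𝒟.of_isEquiv hB ⟨e.symm⟩ h1

/-- H5 (cont): membership in `F` over a complete noetherian local algebra can be tested on
Artinian quotients. -/
theorem F_cont (h𝒟 : GaloisRep.IsDeformationCondition 𝒪 𝒟)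
    (A : Type) [CommRing A] [IsLocalRing A] [IsNoetherianRing A]
    [IsAdicComplete (maximalIdeal A) A] [Algebra 𝒪 A]
    (hloc : IsLocalHom (algebraMap 𝒪 A))
    (hres : Function.Surjective (residue A ∘ algebraMap 𝒪 A)) (x : XX → A) :
    x ∈ F 𝒟 γ A ↔
      ∀ (B : Type) [CommRing B] [IsLocalRing B] [Algebra 𝒪 B],
        GaloisRep.IsArtinianTestAlgebra 𝒪 B → ∀ q : A →ₐ[𝒪] B, Function.Surjective q →
          (fun i => q (x i)) ∈ F 𝒟 γ B :=
  ⟨fun hx B _ _ _ hB q hq => F_cont_mp h𝒟 A hloc hres x hx B hB q hq,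
    fun H => F_cont_mpr h𝒟 A hloc hres x H⟩

end Backward

end Fermat.Agent.S53.H13
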